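import Fermat.Agent.S36.Eng.Spec

/-!
# S36 ENGINE — skeleton, part 1 (architect helper996): `ALG3 + MOD3 ⟹ level engine`

`levelInertia_of_alg3_model3 : Alg3Statement → Model3Statement → LevelInertiaStatement`
(sorry-free).  The leaves are hypotheses.
-/

set_option autoImplicit false
set_option linter.style.haveILetI false
set_option linter.unusedSectionVars false
set_option synthInstance.maxHeartbeats 400000
set_option maxHeartbeats 1600000

noncomputable section

namespace Fermat.Agent.S36.Eng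

open ModularCurve AlgebraicCurve

/-- `q` lies in the maximal ideal of `R_E = P ∩ E`. -/
theorem natCast_mem_maximalIdeal_RE {P : ValuationSubring A2.Qb} (E : IntermediateField ℚ A2.Qb)
    {q : ℕ} (hP : P.LiesOverPrime q) :
    ((q : ℕ) : ↥(A2.RE P E)) ∈ IsLocalRing.maximalIdeal ↥(A2.RE P E) := by
  rw [IsLocalRing.mem_maximalIdeal, mem_nonunits_iff]
  intro hu
  obtain ⟨u, hu⟩ := hu
  have h1 : ((q : ℕ) : ↥(A2.RE P E)) * ((u⁻¹ : (↥(A2.RE P E))ˣ) : ↥(A2.RE P E)) = 1 := by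
    rw [← hu]; exact u.mul_inv
  have h2 : ((q : ℕ) : A2.Qb) * (((((u⁻¹ : (↥(A2.RE P E))ˣ) : ↥(A2.RE P E)) : E) : A2.Qb)) = 1 := by
    have := congrArg (fun z : ↥(A2.RE P E) => (((z : E)) : A2.Qb)) h1
    simpa using this
  have hmem : (((((u⁻¹ : (↥(A2.RE P E))ˣ) : ↥(A2.RE P E)) : E) : A2.Qb)) ∈ P :=
    ((u⁻¹ : (↥(A2.RE P E))ˣ) : ↥(A2.RE P E)).2
  have hval : P.valuation ((q : ℕ) : A2.Qb) < 1 :=
    (ValuationSubring.mem_nonunits_iff P).1 hP
  have hval2 : P.valuation (((((u⁻¹ : (↥(A2.RE P E))ˣ) : ↥(A2.RE P E)) : E) : A2.Qb)) ≤ 1 :=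
    (ValuationSubring.valuation_le_one_iff P _).2 hmem
  have : P.valuation (1 : A2.Qb) < 1 := by
    rw [← h2, map_mul]
    calc P.valuation ((q : ℕ) : A2.Qb) * P.valuation _
        ≤ P.valuation ((q : ℕ) : A2.Qb) * 1 := by gcongr
      _ < 1 := by rwa [mul_one]
  rw [map_one] at this
  exact lt_irrefl _ this

/-- **Skeleton, part 1.**  `ALG3 + MOD3 ⟹` the engine at every unramified good level, at neat
levels. -/
theorem levelInertia_of_alg3_model3 (hALG : Alg3Statement) (hMOD : Model3Statement) :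
    LevelInertiaStatement := by
  intro P E M q _ _ _ hq hqM hP hE hneat
  haveI : IsDiscreteValuationRing ↥(A2.RE P E) := hE.1.dvr
  haveI : HenselianLocalRing ↥(A2.RE P E) := hE.1.henselian
  haveI : IsAlgClosed (IsLocalRing.ResidueField ↥(A2.RE P E)) := hE.1.algClosed
  obtain ⟨w, hw⟩ := IsDiscreteValuationRing.exists_irreducible ↥(A2.RE P E)
  obtain ⟨x, x', V₁, V₂, V₃, V₁', V₂', hctx⟩ := hMOD P E M q hq hqM hP hE hneat w hw
  exact hALG (R := ↥(A2.RE P E)) (E := E) (F := ↥(A2.Mod.FE E (M * q * q)))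
    (F' := ↥(A2.Mod.FE E (M * q))) w hw q hq (natCast_mem_maximalIdeal_RE E hP)
    (A2.Mod.αE E (M * q) q) (A2.Mod.βE E (M * q) q) x x' V₁ V₂ V₃ V₁' V₂' hctx

end Fermat.Agent.S36.Eng

end
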