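import Fermat.Agent.S35.G.SpecLevel
import Fermat.Agent.S18.H138.Charts

/-!
# S36 ENGINE — frozen interfaces (architect helper996)

Target (helper36, `S36/H36/KummerAt.lean`, on main): `KummerQNewInertiaAt` at NEAT levels.
After DESC (helper756) the Galois action is gone and everything happens over the inertia field
`E = ℚ̄^{I_P}` (`R = P ∩ E` henselian DVR, UNRAMIFIED: uniformiser `w = q`, residue field `𝔽̄_q`).

Level `N = M q`, `q ∤ M`; `F' = F_E(N)`, `F = F_E(N q)`; `α, β : F' → F` the two degeneracy maps.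
The special fibre of the normal model of `F` has THREE components `FF`, `mid`, `VV`
(valuation rings `V₁, V₂, V₃` of `F`), with multiplicities `1, q - 1, 1`;
level `N` has two, `V₁'` (`∞`) and `V₂'` (`0`).  Table (`e`, `f`):

    via α :  V₁ | V₁' (1,1)    V₂ | V₁' (q-1,1)    V₃ | V₂' (1, q insep)
    via β :  V₃ | V₂' (1,1)    V₂ | V₂' (q-1,1)    V₁ | V₁' (1, q insep)

* `TripleCtx`        : EVERYTHING the abstract argument uses (a `Prop`; elementwise, no quotient
                        or localisation types).  This is the ALG3 / MOD3 boundary.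
* `Alg3Statement`    : ABSTRACT (Mathlib + `normAlong`): `TripleCtx` ⟹ there is `C > 0` such that
                        for all `m` prime to `q` and all `f ≠ 0` with `m ∣ div f` whose norms along
                        `α` and `β` are constants times `m`-th powers, `f ^ C` is a constant times
                        an `m`-th power.  (`C = (q² - 1)²` works.)
* `Model3Statement`  : the modular function fields carry a `TripleCtx` at neat levels.
* `LevelInertiaAt`   : the engine at the level `E`;  `Skel.lean` proves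
                        `Alg3Statement → Model3Statement → LevelInertiaAt` (sorry-free).

Definitions only (no `sorry`).  Board: `coord/S36-ENGINE.md` on `origin/helper996`.

v1.2 (21:30Z): `UnitAt`, `UnifAt` exclude the junk value `0` (referee helper229);
`regular_f`, `regular_i` only at the closed points of the middle component; `fin_α`, `fin_β`.
v1.3 (21:50Z, FINAL): `base_i`, `gauss_i` (the `V_i` are sheets; asked by helper586);
`NeatFor` contains `4 ∣ M` (`q` odd) resp. `9 ∣ M` (`q = 2`) (asked by REG: helper878, helper925,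
helper843, helper336).
-/

set_option autoImplicit false
set_option linter.style.haveILetI false
set_option linter.unusedSectionVars false
set_option synthInstance.maxHeartbeats 400000
set_option maxHeartbeats 1600000

noncomputable section

namespace Fermat.Agent.S36.Eng

open ModularCurve AlgebraicCurve
open Fermat.Agent.S18.H138 (chart)

/-! ## Elementwise vocabulary (Mathlib only) -/

section Vocab

variable {R F : Type*} [CommRing R] [Field F] [Algebra R F]

/-- `y` is a unit of the valuation ring `V` (in particular `y ≠ 0`). -/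
def UnitAt (V : ValuationSubring F) (y : F) : Prop := y ≠ 0 ∧ y ∈ V ∧ y⁻¹ ∈ V

/-- The component of the special fibre cut out by `V` passes through the closed point `𝔪` of the
chart `B`:  `B ∩ 𝔪_V ⊆ 𝔪`. -/
def Through (B : Subalgebra R F) (𝔪 : Ideal B) (V : ValuationSubring F) : Prop :=
  ∀ b : B, (b : F) ∈ V.nonunits → b ∈ 𝔪

/-- The prime `B ∩ 𝔪_V` is principal locally at `𝔪`: some `t ∈ B ∩ 𝔪_V` divides every element of
`B ∩ 𝔪_V` in `B_𝔪`.  (With `NormalAlong` this says that `B_𝔪` is REGULAR.) -/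
def PrincipalAt (B : Subalgebra R F) (𝔪 : Ideal B) (V : ValuationSubring F) : Prop :=
  ∃ t : B, (t : F) ∈ V.nonunits ∧
    ∀ a : B, (a : F) ∈ V.nonunits → ∃ g c : B, g ∉ 𝔪 ∧ g * a = t * c

/-- The component of the chart `B` cut out by `V` is normal, with function field the residue field
of `V`:  an element of `F` which is integral over `B` modulo `𝔪_V` is congruent modulo `𝔪_V` to an
element of `B`. -/
def NormalAlong (B : Subalgebra R F) (V : ValuationSubring F) : Prop :=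
  ∀ (f : F) (p : Polynomial B), p.Monic → Polynomial.aeval f p ∈ V.nonunits →
    ∃ b : B, f - (b : F) ∈ V.nonunits

/-- `B ∩ w (V₁ ∩ V₂ ∩ V₃) = w B`: the three valuation rings are ALL the components of the special
fibre of the chart `B`, with their multiplicities (`q`-expansion principle). -/
def Qep3 (w : R) (B : Subalgebra R F) (V₁ V₂ V₃ : ValuationSubring F) : Prop :=
  ∀ b : B, (b : F) * (algebraMap R F w)⁻¹ ∈ V₁ → (b : F) * (algebraMap R F w)⁻¹ ∈ V₂ →
    (b : F) * (algebraMap R F w)⁻¹ ∈ V₃ → ∃ c : B, b = algebraMap R B w * c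

/-- `t` is a uniformiser of `V` (in particular `t ≠ 0`). -/
def UnifAt (V : ValuationSubring F) (t : F) : Prop :=
  t ≠ 0 ∧ t ∈ V.nonunits ∧ ∀ f ∈ V.nonunits, f * t⁻¹ ∈ V

/-- `𝔪` is a TRIPLE point of the chart `B`: all three components pass through it. -/
def IsTriple (B : Subalgebra R F) (𝔪 : Ideal B) (V₁ V₂ V₃ : ValuationSubring F) : Prop :=
  Through B 𝔪 V₁ ∧ Through B 𝔪 V₂ ∧ Through B 𝔪 V₃

end Vocab

/-! ## The context of ALG3 -/

section Ctx

variable {R E F F' : Type*} [CommRing R] [Field E] [Algebra R E]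
  [Field F] [Algebra E F] [Algebra R F] [Field F'] [Algebra E F'] [Algebra R F']

/-- **The three-component context** (level `q² M'` over level `q M'`), elementwise.

Data: uniformiser `w` of `R`, residue characteristic `q`, the degeneracy maps `α, β : F' → F`,
coordinates `x` of `F` and `x'` of `F'`, valuation rings `V₁ = FF`, `V₂ = mid`, `V₃ = VV` of `F`
and `V₁'`, `V₂'` of `F'`.  Charts: `Bf = chart R {x}`, `Bi = chart R {x⁻¹}`, `Bf' = chart R {x'}`
(integral closures of `R[x]`, `R[x⁻¹]`, `R[x']`). -/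
structure TripleCtx (w : R) (q : ℕ) (α β : F' →ₐ[E] F) (x : F) (x' : F')
    (V₁ V₂ V₃ : ValuationSubring F) (V₁' V₂' : ValuationSubring F') : Prop where
  -- ### the function field
  hx : Transcendental E x
  hfin : FiniteDimensional (IntermediateField.adjoin E ({x} : Set F)) F
  hconst : ∀ f : F, IsAlgebraic E f → f ∈ (algebraMap E F).range
  -- ### the three valuation rings: DVRs, distinct, multiplicities `1, q - 1, 1`
  dvr₁ : IsDiscreteValuationRing V₁
  dvr₂ : IsDiscreteValuationRing V₂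
  dvr₃ : IsDiscreteValuationRing V₃
  ne₁₂ : V₁ ≠ V₂
  ne₁₃ : V₁ ≠ V₃
  ne₂₃ : V₂ ≠ V₃
  unif₁ : UnifAt V₁ (algebraMap R F w)
  unif₃ : UnifAt V₃ (algebraMap R F w)
  /-- `w = unit · t ^ (q - 1)` at `V₂`, `t` a uniformiser -/
  ram₂ : ∃ t : F, UnifAt V₂ t ∧ UnitAt V₂ (algebraMap R F w * (t ^ (q - 1))⁻¹)
  -- ### the charts of level `q² M'`
  base₁ : ∀ r : R, algebraMap R F r ∈ V₁
  base₂ : ∀ r : R, algebraMap R F r ∈ V₂
  base₃ : ∀ r : R, algebraMap R F r ∈ V₃
  /-- `x` is a unit of the three valuation rings (so both charts lie in `V₁ ∩ V₂ ∩ V₃`) -/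
  x_unit₁ : UnitAt V₁ x
  x_unit₂ : UnitAt V₂ x
  x_unit₃ : UnitAt V₃ x
  /-- the three valuation rings are SHEETS of `x` (they induce the Gauss valuation on `R[x]`:
  the residue of `x` is transcendental); with `base_i`, `x_unit_i`, `unif_i`/`ram₂` this is
  `A2.H12.IsSheet w x V_i`, so `V_i` is the localisation of the chart at `B ∩ 𝔪_{V_i}`
  (`S36.H193.sheet_mem_iff`) -/
  gauss₁ : ∀ P : Polynomial R, (∃ i, ¬ w ∣ P.coeff i) → (Polynomial.aeval x P)⁻¹ ∈ V₁
  gauss₂ : ∀ P : Polynomial R, (∃ i, ¬ w ∣ P.coeff i) → (Polynomial.aeval x P)⁻¹ ∈ V₂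
  gauss₃ : ∀ P : Polynomial R, (∃ i, ¬ w ∣ P.coeff i) → (Polynomial.aeval x P)⁻¹ ∈ V₃
  qep_f : Qep3 w (chart R ({x} : Set F)) V₁ V₂ V₃
  qep_i : Qep3 w (chart R ({x⁻¹} : Set F)) V₁ V₂ V₃
  normal_f₁ : NormalAlong (chart R ({x} : Set F)) V₁
  normal_f₂ : NormalAlong (chart R ({x} : Set F)) V₂
  normal_f₃ : NormalAlong (chart R ({x} : Set F)) V₃
  normal_i₁ : NormalAlong (chart R ({x⁻¹} : Set F)) V₁
  normal_i₂ : NormalAlong (chart R ({x⁻¹} : Set F)) V₂
  normal_i₃ : NormalAlong (chart R ({x⁻¹} : Set F)) V₃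
  /-- INCIDENCE (finite chart): a closed point on two components is a triple point -/
  incidence : ∀ 𝔪 : Ideal (chart R ({x} : Set F)), 𝔪.IsMaximal →
    (Through _ 𝔪 V₁ ∧ Through _ 𝔪 V₂) ∨ (Through _ 𝔪 V₁ ∧ Through _ 𝔪 V₃) ∨
      (Through _ 𝔪 V₂ ∧ Through _ 𝔪 V₃) → IsTriple _ 𝔪 V₁ V₂ V₃
  /-- REGULARITY (finite chart): at every closed point of the MIDDLE component some component
  through the point is locally principal.  (At the other closed points of the special fibre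
  regularity is automatic: one component of multiplicity one, `Qep3`.) -/
  regular_f : ∀ 𝔪 : Ideal (chart R ({x} : Set F)), 𝔪.IsMaximal → Through _ 𝔪 V₂ →
    (Through _ 𝔪 V₁ ∧ PrincipalAt _ 𝔪 V₁) ∨ PrincipalAt _ 𝔪 V₂ ∨
      (Through _ 𝔪 V₃ ∧ PrincipalAt _ 𝔪 V₃)
  /-- the points at infinity (`x⁻¹ = 0`, the cusps) lie on ONE component -/
  cusp_single : ∀ 𝔪 : Ideal (chart R ({x⁻¹} : Set F)), 𝔪.IsMaximal →
    algebraMap R (chart R ({x⁻¹} : Set F)) w ∈ 𝔪 →
    (⟨x⁻¹, Fermat.Agent.S18.H138.mem_chart_of_mem rfl⟩ : chart R ({x⁻¹} : Set F)) ∈ 𝔪 →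
    ¬ (Through _ 𝔪 V₁ ∧ Through _ 𝔪 V₂) ∧ ¬ (Through _ 𝔪 V₁ ∧ Through _ 𝔪 V₃) ∧
      ¬ (Through _ 𝔪 V₂ ∧ Through _ 𝔪 V₃)
  /-- REGULARITY at the points at infinity of the MIDDLE component -/
  regular_i : ∀ 𝔪 : Ideal (chart R ({x⁻¹} : Set F)), 𝔪.IsMaximal →
    (⟨x⁻¹, Fermat.Agent.S18.H138.mem_chart_of_mem rfl⟩ : chart R ({x⁻¹} : Set F)) ∈ 𝔪 →
    Through _ 𝔪 V₂ → PrincipalAt _ 𝔪 V₂
  -- ### the two degeneracy maps: the `(e, f)` table
  fin_α : FiniteAlong E α
  fin_β : FiniteAlong E β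
  comap_α₁ : V₁.comap (α : F' →+* F) = V₁'
  comap_α₂ : V₂.comap (α : F' →+* F) = V₁'
  comap_α₃ : V₃.comap (α : F' →+* F) = V₂'
  comap_β₁ : V₁.comap (β : F' →+* F) = V₁'
  comap_β₂ : V₂.comap (β : F' →+* F) = V₂'
  comap_β₃ : V₃.comap (β : F' →+* F) = V₂'
  /-- NV (valuations of norms), `α`:  `v₁'(N y) = v₁ y + v₂ y`, `v₂'(N y) = q · v₃ y` -/
  nv_α : ∀ (t : F), UnifAt V₂ t → ∀ (y : F) (a₁ a₂ a₃ : ℤ), y ≠ 0 →
    UnitAt V₁ (y * (algebraMap R F w ^ a₁)⁻¹) → UnitAt V₂ (y * (t ^ a₂)⁻¹) →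
    UnitAt V₃ (y * (algebraMap R F w ^ a₃)⁻¹) →
    UnitAt V₁' (S29.H395.normAlong α y * (algebraMap R F' w ^ (a₁ + a₂))⁻¹) ∧
      UnitAt V₂' (S29.H395.normAlong α y * (algebraMap R F' w ^ ((q : ℤ) * a₃))⁻¹)
  /-- NV, `β`:  `v₂'(N y) = v₃ y + v₂ y`, `v₁'(N y) = q · v₁ y` -/
  nv_β : ∀ (t : F), UnifAt V₂ t → ∀ (y : F) (a₁ a₂ a₃ : ℤ), y ≠ 0 →
    UnitAt V₁ (y * (algebraMap R F w ^ a₁)⁻¹) → UnitAt V₂ (y * (t ^ a₂)⁻¹) →
    UnitAt V₃ (y * (algebraMap R F w ^ a₃)⁻¹) →
    UnitAt V₂' (S29.H395.normAlong β y * (algebraMap R F' w ^ (a₃ + a₂))⁻¹) ∧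
      UnitAt V₁' (S29.H395.normAlong β y * (algebraMap R F' w ^ ((q : ℤ) * a₁))⁻¹)
  /-- NR (residues of norms), `α` over `V₁'`:  `res (N y) = res₁ y · (res₂ y) ^ (q - 1)` -/
  nr_α₁ : ∀ y : F, UnitAt V₁ y → UnitAt V₂ y → ∀ x₁ x₂ : F',
    α x₁ - y ∈ V₁.nonunits → α x₂ - y ∈ V₂.nonunits →
    S29.H395.normAlong α y - x₁ * x₂ ^ (q - 1) ∈ V₁'.nonunits
  /-- NR, `α` over `V₂'` (purely inseparable of degree `q`):  `res (N y) = (res₃ y) ^ q` -/
  nr_α₂ : ∀ y : F, UnitAt V₃ y → α (S29.H395.normAlong α y) - y ^ q ∈ V₃.nonunits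
  /-- NR, `β` over `V₂'` -/
  nr_β₁ : ∀ y : F, UnitAt V₃ y → UnitAt V₂ y → ∀ x₃ x₂ : F',
    β x₃ - y ∈ V₃.nonunits → β x₂ - y ∈ V₂.nonunits →
    S29.H395.normAlong β y - x₃ * x₂ ^ (q - 1) ∈ V₂'.nonunits
  /-- NR, `β` over `V₁'` (purely inseparable of degree `q`) -/
  nr_β₂ : ∀ y : F, UnitAt V₁ y → β (S29.H395.normAlong β y) - y ^ q ∈ V₁.nonunits
  -- ### the finite chart of level `q M'`
  /-- `α` and `β` map the finite chart of level `q M'` into the finite chart of level `q² M'` -/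
  chart_α : ∀ b ∈ chart R ({x'} : Set F'), α b ∈ chart R ({x} : Set F)
  chart_β : ∀ b ∈ chart R ({x'} : Set F'), β b ∈ chart R ({x} : Set F)
  /-- the finite chart of level `q² M'` is integral over the image of the one of level `q M'` -/
  int_α : ∀ b ∈ chart R ({x} : Set F), ∃ p : Polynomial F', p.Monic ∧
    (∀ i, p.coeff i ∈ chart R ({x'} : Set F')) ∧ (p.map (α : F' →+* F)).eval b = 0
  int_β : ∀ b ∈ chart R ({x} : Set F), ∃ p : Polynomial F', p.Monic ∧
    (∀ i, p.coeff i ∈ chart R ({x'} : Set F')) ∧ (p.map (β : F' →+* F)).eval b = 0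
  /-- RES (residue degree one, in chart form):  `Bf = α (Bf') + (Bf ∩ 𝔪_V)` -/
  res_α₁ : ∀ b ∈ chart R ({x} : Set F), ∃ b' ∈ chart R ({x'} : Set F'), b - α b' ∈ V₁.nonunits
  res_α₂ : ∀ b ∈ chart R ({x} : Set F), ∃ b' ∈ chart R ({x'} : Set F'), b - α b' ∈ V₂.nonunits
  res_β₃ : ∀ b ∈ chart R ({x} : Set F), ∃ b' ∈ chart R ({x'} : Set F'), b - β b' ∈ V₃.nonunits
  res_β₂ : ∀ b ∈ chart R ({x} : Set F), ∃ b' ∈ chart R ({x'} : Set F'), b - β b' ∈ V₂.nonunits
  /-- a triple point is the ONLY closed point of the finite chart over its image under `α` -/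
  unique_α : ∀ 𝔪 𝔪' : Ideal (chart R ({x} : Set F)), 𝔪.IsMaximal → 𝔪'.IsMaximal →
    IsTriple _ 𝔪 V₁ V₂ V₃ →
    (∀ (b' : F') (h : b' ∈ chart R ({x'} : Set F')),
      (⟨α b', chart_α b' h⟩ : chart R ({x} : Set F)) ∈ 𝔪 →
        (⟨α b', chart_α b' h⟩ : chart R ({x} : Set F)) ∈ 𝔪') → 𝔪' = 𝔪
  /-- … and over its image under `β` -/
  unique_β : ∀ 𝔪 𝔪' : Ideal (chart R ({x} : Set F)), 𝔪.IsMaximal → 𝔪'.IsMaximal →
    IsTriple _ 𝔪 V₁ V₂ V₃ →
    (∀ (b' : F') (h : b' ∈ chart R ({x'} : Set F')),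
      (⟨β b', chart_β b' h⟩ : chart R ({x} : Set F)) ∈ 𝔪 →
        (⟨β b', chart_β b' h⟩ : chart R ({x} : Set F)) ∈ 𝔪') → 𝔪' = 𝔪

end Ctx

/-! ## ALG3 -/

/-- **ALG3 (interface statement).**  `R` a henselian DVR with algebraically closed residue field of
characteristic `q`, uniformiser `w`, `E = Frac R`; a three-component context.  Then there is
`C > 0` such that for all `m` prime to `q`: every `f ∈ Fˣ` with `m ∣ div f` whose norms along `α`
and `β` are constants times `m`-th powers satisfies `f ^ C ∈ Eˣ · (Fˣ) ^ m`. -/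
def Alg3Statement : Prop :=
  ∀ {R E F F' : Type} [CommRing R] [IsDomain R] [IsDiscreteValuationRing R]
    [HenselianLocalRing R] [IsAlgClosed (IsLocalRing.ResidueField R)]
    [Field E] [CharZero E] [Algebra R E] [IsFractionRing R E]
    [Field F] [Algebra E F] [Algebra R F] [IsScalarTower R E F]
    [Field F'] [Algebra E F'] [Algebra R F'] [IsScalarTower R E F']
    (w : R) (_ : Irreducible w) (q : ℕ) (_ : q.Prime)
    (_ : (q : R) ∈ IsLocalRing.maximalIdeal R)
    (α β : F' →ₐ[E] F) (x : F) (x' : F')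
    (V₁ V₂ V₃ : ValuationSubring F) (V₁' V₂' : ValuationSubring F')
    (_ : TripleCtx w q α β x x' V₁ V₂ V₃ V₁' V₂'),
    ∃ C : ℕ, 0 < C ∧ ∀ m : ℕ, 0 < m → ¬ q ∣ m →
      ∀ f : F, f ≠ 0 → A2.DivisibleDiv E m f →
        S35.G.NormPow α m f → S35.G.NormPow β m f →
        ∃ (c : E) (h : F), h ≠ 0 ∧ f ^ C = algebraMap E F c * h ^ m

/-! ## The level-`E` engine and MOD3 -/

section Level

variable (P : ValuationSubring A2.Qb) (E : IntermediateField ℚ A2.Qb) (M q : ℕ)
  [NeZero M] [NeZero q]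

/-- **The engine at the level `E`**, levels `N = M q` and `N q = M q q`. -/
def LevelInertiaAt [NeZero (M * q)] : Prop :=
  ∃ C : ℕ, 0 < C ∧ ∀ m : ℕ, 0 < m → ¬ q ∣ m →
    ∀ y : A2.Mod.FE E (M * q * q), y ≠ 0 → A2.DivisibleDiv E m y →
      S35.G.NormPow (A2.Mod.αE E (M * q) q) m y → S35.G.NormPow (A2.Mod.βE E (M * q) q) m y →
      ∃ (c : E) (h : A2.Mod.FE E (M * q * q)), h ≠ 0 ∧
        y ^ C = algebraMap E (A2.Mod.FE E (M * q * q)) c * h ^ m

/-- The level `M q` is NEAT for `q`: some prime `r ≡ 11 mod 12` divides `M`, and `4 ∣ M` if `q` is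
odd, `9 ∣ M` if `q = 2` (no elliptic points in characteristic `q`, with the EXPLICIT local
coordinate `t₄` resp. `t₉` at every non-cuspidal point; in particular `S35.G.HasAux M q`). -/
def NeatFor : Prop :=
  (∃ r : ℕ, r.Prime ∧ r % 12 = 11 ∧ r ≠ q ∧ r ∣ M) ∧ (q ≠ 2 → 4 ∣ M) ∧ (q = 2 → 9 ∣ M)

theorem NeatFor.hasAux {M q : ℕ} (h : NeatFor M q) : S35.G.HasAux M q :=
  ⟨fun h3 => Dvd.dvd.trans (by norm_num) (h.2.1 (by omega)),
    fun h2 => Dvd.dvd.trans (by norm_num) (h.2.2 h2)⟩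

/-- `E` is an UNRAMIFIED good level for `P`: `q` is a uniformiser of `R_E = P ∩ E`. -/
def Unramified (P : ValuationSubring A2.Qb) (E : IntermediateField ℚ A2.Qb) (q : ℕ) : Prop :=
  A2.GoodField P E ∧ ∀ e : E, (e : A2.Qb) ∈ P.nonunits → (e : A2.Qb) * ((q : A2.Qb))⁻¹ ∈ P

/-- **MOD3 (interface statement).**  At a neat level `M q`, `q ∤ M`, over an unramified good
level `E`, the function fields `F' = F_E(M q)`, `F = F_E(M q²)` with the two degeneracy maps carry
a three-component context. -/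
def Model3Statement : Prop :=
  ∀ (P : ValuationSubring A2.Qb) (E : IntermediateField ℚ A2.Qb) (M q : ℕ)
    [NeZero M] [NeZero q] [NeZero (M * q)],
    q.Prime → ¬ q ∣ M → P.LiesOverPrime q → Unramified P E q → NeatFor M q →
    ∀ w : A2.RE P E, Irreducible w →
    ∃ (x : A2.Mod.FE E (M * q * q)) (x' : A2.Mod.FE E (M * q))
      (V₁ V₂ V₃ : ValuationSubring (A2.Mod.FE E (M * q * q)))
      (V₁' V₂' : ValuationSubring (A2.Mod.FE E (M * q))),
      TripleCtx (R := A2.RE P E) (E := E) w q (A2.Mod.αE E (M * q) q) (A2.Mod.βE E (M * q) q)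
        x x' V₁ V₂ V₃ V₁' V₂'

/-- **The level engine (interface statement).** -/
def LevelInertiaStatement : Prop :=
  ∀ (P : ValuationSubring A2.Qb) (E : IntermediateField ℚ A2.Qb) (M q : ℕ)
    [NeZero M] [NeZero q] [NeZero (M * q)],
    q.Prime → ¬ q ∣ M → P.LiesOverPrime q → Unramified P E q → NeatFor M q →
    LevelInertiaAt E M q

end Level

end Fermat.Agent.S36.Eng

end
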