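import Fermat.Agent.S36.Eng.Skel
import Fermat.Agent.S36.H36.KummerAt

/-!
# S36 ENGINE — skeleton, part 2 (architect helper996): the leaves and the top assembly

Leaves (each ONE `Prop`):

* `Alg3Statement`        (`Spec.lean`)  ABSTRACT three-component theorem;
* `Model3Statement`      (`Spec.lean`)  the modular three-component context at neat levels;
* `InertiaFieldStatement`               (UNR) the inertia field `ℚ̄^{I_P}` is an UNRAMIFIED good
                                        level;
* `DescPlugStatement`                   DESC + Kummer dictionary, POINTWISE: the level engine at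
                                        the inertia field gives helper442's `QNewInertiaAt`
                                        (= helper756 `kummerQNewInertiaAt_of_fixedAtC` + helper36
                                        `qNewInertiaAt_of_kummerAt` + a reshaping).

`qNewInertia_of_leaves` : the four leaves ⟹ `H36.QNewInertiaStatement` (all levels: the auxiliary
primes `r ≡ 11 mod 12` and `2, 2` (`q` odd) resp. `3, 3` (`q = 2`) are added here and removed by
helper442's one-step descent `qNewInertiaAt_of_mul`), hence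
`newPartInertia_of_leaves : … → H36.NewPartInertiaStatement`, the engine (N) of helper36's chain.
-/

set_option autoImplicit false
set_option linter.style.haveILetI false
set_option linter.unusedSectionVars false
set_option synthInstance.maxHeartbeats 400000
set_option maxHeartbeats 1600000

noncomputable section

namespace Fermat.Agent.S36.Eng

open ModularCurve AlgebraicCurve

/-- The inertia field `ℚ̄^{I_P}`. -/
abbrev inertiaFld (P : ValuationSubring A2.Qb) : IntermediateField ℚ A2.Qb :=
  IntermediateField.fixedField (P.inertiaSubgroupIn ℚ)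

/-- **UNR (leaf).**  The inertia field of a place `P` over `q` is an unramified good level:
`P ∩ ℚ̄^{I_P}` is a henselian DVR with uniformiser `q` and algebraically closed residue field.
(`A2/IF/H429`, `A2/IF/H969` have everything except `e = 1`:
`Ideal.card_inertia_eq_ramificationIdxIn` at finite levels.) -/
def InertiaFieldStatement : Prop :=
  ∀ q : ℕ, q.Prime → ∀ P : ValuationSubring A2.Qb, P.LiesOverPrime q →
    Unramified P (inertiaFld P) q

/-- **DESC plug (leaf), pointwise.**  `x ∈ J₀(M q²)[p^∞]` fixed by `I_A` has a Kummer generator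
over the inertia field (helper756); `q`-newness gives the two norm conditions over the inertia
field; the level engine gives `y ^ C = c h ^ m`, hence `C • x = 0` and `p ^ k • x = 0`,
`k = v_p(C)`. -/
def DescPlugStatement : Prop :=
  ∀ (M q p : ℕ) [NeZero M] [NeZero q] [NeZero (M * q)], q.Prime → ¬ q ∣ M → p.Prime → p ≠ q →
    ∀ A : ValuationSubring A2.Qb, A.LiesOverPrime q →
      LevelInertiaAt (inertiaFld A) M q → H442.QNewInertiaAt (M * q) q p A

/-- Transport of `QNewInertiaAt` along an equality of levels. -/
theorem qNewInertiaAt_congr {N N' q p : ℕ} [NeZero N] [NeZero N'] [NeZero q]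
    (P : ValuationSubring (AlgebraicClosure ℚ)) (h : N = N')
    (hN : H442.QNewInertiaAt N q p P) : H442.QNewInertiaAt N' q p P := by
  subst h
  exact hN

/-- The engine at ONE neat level `N₁` (`q ‖ N₁`), from the leaves. -/
theorem qNewInertiaAt_of_leaves (hALG : Alg3Statement) (hMOD : Model3Statement)
    (hUNR : InertiaFieldStatement) (hDESC : DescPlugStatement)
    (N₁ q p : ℕ) [NeZero N₁] [NeZero q] (hq : q.Prime) (hfac : N₁.factorization q = 1)
    (hr : ∃ r : ℕ, r.Prime ∧ r % 12 = 11 ∧ r ≠ q ∧ r ∣ N₁)
    (h4 : q ≠ 2 → 4 ∣ N₁) (h9 : q = 2 → 9 ∣ N₁)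
    (hp : p.Prime) (hpq : p ≠ q) (A : ValuationSubring A2.Qb) (hA : A.LiesOverPrime q) :
    H442.QNewInertiaAt N₁ q p A := by
  have hqN : q ∣ N₁ := Nat.dvd_of_factorization_pos (by rw [hfac]; exact one_ne_zero)
  obtain ⟨M, hM⟩ := hqN
  have hM' : N₁ = M * q := by rw [hM, mul_comm]
  have hM0 : M ≠ 0 := fun h => by
    rw [h, zero_mul] at hM'
    exact (NeZero.ne N₁) hM'
  haveI : NeZero M := ⟨hM0⟩
  haveI : NeZero (M * q) := ⟨Nat.mul_ne_zero hM0 hq.ne_zero⟩
  have hqM : ¬ q ∣ M := by
    intro hd
    have h2' : 2 ≤ (M * q).factorization q := by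
      rw [Nat.factorization_mul hM0 hq.ne_zero, Finsupp.add_apply, hq.factorization,
        Finsupp.single_eq_same]
      have : 1 ≤ M.factorization q :=
        (hq.dvd_iff_one_le_factorization hM0).1 hd
      omega
    rw [← hM'] at h2'
    omega
  have hneat : NeatFor M q := by
    obtain ⟨r, hrp, hr12, hrq, hrd⟩ := hr
    refine ⟨⟨r, hrp, hr12, hrq, ?_⟩, ?_, ?_⟩
    · rw [hM'] at hrd
      rcases (Nat.Prime.dvd_mul hrp).1 hrd with h | h
      · exact h
      · exact absurd ((Nat.prime_dvd_prime_iff_eq hrp hq).1 h) hrq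
    · intro hq2
      have h := h4 hq2
      rw [hM'] at h
      have hcop : Nat.Coprime 4 q := by
        have h2q : Nat.Coprime 2 q := (Nat.coprime_primes Nat.prime_two hq).2 (Ne.symm hq2)
        exact Nat.Coprime.pow_left 2 h2q
      exact hcop.dvd_of_dvd_mul_right h
    · intro hq2
      have h := h9 hq2
      rw [hM'] at h
      subst hq2
      have hcop : Nat.Coprime 9 2 := by norm_num
      exact hcop.dvd_of_dvd_mul_right h
  exact qNewInertiaAt_congr A hM'.symm
    (hDESC M q p hq hqM hp hpq A hA
      (levelInertia_of_alg3_model3 hALG hMOD A (inertiaFld A) M q hq hqM hA (hUNR q hq A hA)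
        hneat))

/-- **Skeleton, part 2.**  The four leaves give the engine on `J₀(N q)` at ALL levels `q ‖ N`:
the level is multiplied by a prime `r ≡ 11 mod 12` and by `s²`, `s = 2` (`q` odd) resp. `s = 3`
(`q = 2`), and the three auxiliary primes are removed by `H442.qNewInertiaAt_of_mul`. -/
theorem qNewInertia_of_leaves (hALG : Alg3Statement) (hMOD : Model3Statement)
    (hUNR : InertiaFieldStatement) (hDESC : DescPlugStatement) : H36.QNewInertiaStatement := by
  intro N q p _ _ hq hfac hp hpq P hP
  -- the auxiliary prime `r ≡ 11 mod 12`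
  obtain ⟨r, hB, hr, hmod⟩ := H442.exists_neat_prime (N * q * 6)
  haveI : NeZero r := ⟨hr.ne_zero⟩
  have hN0 : N ≠ 0 := NeZero.ne N
  have hNpos : 0 < N := Nat.pos_of_ne_zero hN0
  have hrq : r ≠ q := by
    rintro rfl
    have : r ≤ N * r * 6 := by
      calc r = 1 * r * 1 := by ring
        _ ≤ N * r * 6 := by gcongr <;> omega
    omega
  -- the small auxiliary prime `s`
  obtain ⟨s, hs, hsq, hs4, hs9⟩ : ∃ s : ℕ, s.Prime ∧ s ≠ q ∧ (q ≠ 2 → s = 2) ∧ (q = 2 → s = 3) := by
    by_cases hq2 : q = 2
    · exact ⟨3, Nat.prime_three, by omega, fun h => absurd hq2 h, fun _ => rfl⟩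
    · exact ⟨2, Nat.prime_two, fun h => hq2 h.symm, fun _ => rfl, fun h => absurd h hq2⟩
  haveI : NeZero s := ⟨hs.ne_zero⟩
  haveI : NeZero (N * r) := ⟨Nat.mul_ne_zero hN0 hr.ne_zero⟩
  haveI : NeZero (N * r * s) := ⟨Nat.mul_ne_zero (NeZero.ne (N * r)) hs.ne_zero⟩
  haveI : NeZero (N * r * s * s) := ⟨Nat.mul_ne_zero (NeZero.ne (N * r * s)) hs.ne_zero⟩
  have hfac1 : (N * r).factorization q = 1 :=
    H442.factorization_mul_prime_eq_one hN0 hr hrq hfac
  have hfac2 : (N * r * s).factorization q = 1 :=
    H442.factorization_mul_prime_eq_one (NeZero.ne (N * r)) hs hsq hfac1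
  have hfac3 : (N * r * s * s).factorization q = 1 :=
    H442.factorization_mul_prime_eq_one (NeZero.ne (N * r * s)) hs hsq hfac2
  -- descend three times
  refine H442.qNewInertiaAt_of_mul N q r p hq hr hrq hp P ?_
  refine H442.qNewInertiaAt_of_mul (N * r) q s p hq hs hsq hp P ?_
  refine H442.qNewInertiaAt_of_mul (N * r * s) q s p hq hs hsq hp P ?_
  refine qNewInertiaAt_of_leaves hALG hMOD hUNR hDESC (N * r * s * s) q p hq hfac3
    ⟨r, hr, hmod, hrq, ?_⟩ ?_ ?_ hp hpq P hP
  · exact Dvd.dvd.mul_right (Dvd.dvd.mul_right (Dvd.intro_left N rfl) s) s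
  · intro hq2
    have := hs4 hq2
    subst this
    exact ⟨N * r, by ring⟩
  · intro hq2
    have := hs9 hq2
    subst this
    exact ⟨N * r, by ring⟩

/-- **The engine (N)** of helper36's chain from the four leaves. -/
theorem newPartInertia_of_leaves (hALG : Alg3Statement) (hMOD : Model3Statement)
    (hUNR : InertiaFieldStatement) (hDESC : DescPlugStatement) : H36.NewPartInertiaStatement :=
  H36.newPartInertiaStatement_of_qNew (qNewInertia_of_leaves hALG hMOD hUNR hDESC)

end Fermat.Agent.S36.Eng

end
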