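import Fermat.Agent.S36.Eng.Top
import Fermat.Agent.S36.Eng.H189.Unr
import Fermat.Agent.S36.H756.DescPlugCore

/-!
# S36 ENGINE — skeleton, part 3 (architect helper996): TWO leaves left

The leaves `InertiaFieldStatement` (UNR: helper189, `Eng/H189/Unr.lean`) and `DescPlugStatement`
(helper756, `H756/DescPlugCore.lean`) are theorems.  Hence

  `newPartInertia_of_alg3_model3 : Alg3Statement → Model3Statement → H36.NewPartInertiaStatement`,

i.e. the engine (N) of helper36's chain follows from ALG3 (abstract) and MOD3 (modular).
-/

set_option autoImplicit false
set_option linter.style.haveILetI false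

noncomputable section

namespace Fermat.Agent.S36.Eng

/-- **UNR** (helper189). -/
theorem inertiaFieldStatement : InertiaFieldStatement :=
  fun q hq P hP => H189.unramified_inertiaField q hq P hP

/-- **DESC plug** (helper756 + helper36). -/
theorem descPlugStatement : DescPlugStatement :=
  fun M q p _ _ _ hq _ hp hpq A _ h =>
    Fermat.Agent.S36.H756.qNewInertiaAt_of_levelEngine M q p hq hp hpq A h

/-- **The engine on `J₀(N q)`, `q ‖ N`, from ALG3 and MOD3.** -/
theorem qNewInertia_of_alg3_model3 (hALG : Alg3Statement) (hMOD : Model3Statement) :
    H36.QNewInertiaStatement :=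
  qNewInertia_of_leaves hALG hMOD inertiaFieldStatement descPlugStatement

/-- **The engine (N) of helper36's chain from ALG3 and MOD3.** -/
theorem newPartInertia_of_alg3_model3 (hALG : Alg3Statement) (hMOD : Model3Statement) :
    H36.NewPartInertiaStatement :=
  newPartInertia_of_leaves hALG hMOD inertiaFieldStatement descPlugStatement

end Fermat.Agent.S36.Eng

end
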